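/-
MAZUR (Track M), package (E3) (lead), part 3b: **the functional Hecke operator on the modular unit**
`U_r = r^12 Δ(q^r)/Δ(q)` (`r ∣ N`, `ℓ ∤ N` prime):

  `T_ℓ^fun U_r = U_r ^ (ℓ + 1)`          (`mze3_hecke_U`).

From the product formula for the Euler product (`EtaPS.lean`) through
`Δ = q ∏ (1 - q^n)^24` and the defining `q`-expansion identity of `tkrHecke` (T1-K).
(Shared with DELTA: this is `DlsVert.hecke` with `c = 1`, `u = 1`.)
-/
import Fermat.Agent.Lib.Mazur.E.Cusp3.EtaPS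
import Fermat.Agent.Lib.T1.Kron.Hecke
import Fermat.Agent.Lib.Eis.Eta.EtaProd
import Fermat.Agent.Lib.Mazur.G.CV.Main

set_option autoImplicit false
set_option linter.style.haveILetI false
set_option linter.unusedSectionVars false
set_option linter.unusedVariables false
set_option synthInstance.maxHeartbeats 400000

open HahnSeries ModularCurve Fermat.Agent.T1 Fermat.Agent.Igusa Fermat.Agent.Eis

noncomputable section

namespace Fermat.Agent.Mazur

section LS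

variable {K : Type*} [Field K]

theorem mze3_eeEtaLS_eq : eeEtaLS K = HahnSeries.ofPowerSeries ℤ K (mze3Eta K) := rfl

/-- the twist `q ↦ c q` on power series inside Laurent series -/
theorem mze3_tkrTw_ofPowerSeries (c : Kˣ) (g : PowerSeries K) :
    tkrTw c (HahnSeries.ofPowerSeries ℤ K g)
      = HahnSeries.ofPowerSeries ℤ K (PowerSeries.rescale (c : K) g) := by
  ext n
  rw [tkrTw_coeff]
  rcases le_or_gt 0 n with hn | hn
  · lift n to ℕ using hn
    rw [HahnSeries.ofPowerSeries_apply_coeff, HahnSeries.ofPowerSeries_apply_coeff,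
      PowerSeries.coeff_rescale, zpow_natCast, Units.val_pow_eq_pow_val]
  · rw [ofPowerSeries_coeff_of_neg _ hn, ofPowerSeries_coeff_of_neg _ hn, mul_zero]

/-- **the product formula for `E = ∏ (1 - q^n)`** in Laurent series -/
theorem mze3_eta_prod_LS {l : ℕ} [NeZero l] (hl : l.Prime) {ζ : Kˣ}
    (hζ : IsPrimitiveRoot (ζ : K) l) :
    (∏ b : Fin l, tkrTw (ζ ^ (b : ℕ)) (eeEtaLS K)) * qExpand K (l * l) (eeEtaLS K)
      = qExpand K l (eeEtaLS K) ^ (l + 1) := by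
  have h := mze3_eta_prod (K := K) hl hζ
  have h2 := congrArg (HahnSeries.ofPowerSeries ℤ K) h
  rw [map_mul, map_prod, map_pow] at h2
  rw [mze3_eeEtaLS_eq, tkr_qExpand_ofPowerSeries, tkr_qExpand_ofPowerSeries,
    Fin.prod_univ_eq_prod_range (fun b => tkrTw (ζ ^ b) (HahnSeries.ofPowerSeries ℤ K (mze3Eta K))) l]
  rw [← h2]
  congr 1
  refine Finset.prod_congr rfl fun b _ => ?_
  rw [mze3_tkrTw_ofPowerSeries, Units.val_pow_eq_pow_val]

theorem mze3_prod_single (n : ℕ) (x : ℕ → K) :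
    ∏ b ∈ Finset.range n, (HahnSeries.single (1 : ℤ) (x b) : LaurentSeries K)
      = HahnSeries.single (n : ℤ) (∏ b ∈ Finset.range n, x b) := by
  induction n with
  | zero => simp
  | succ n ih =>
    rw [Finset.prod_range_succ, Finset.prod_range_succ, ih, HahnSeries.single_mul_single]
    push_cast
    rfl

theorem mze3_deltaLS_ne_zero : deltaLS K ≠ 0 := by
  intro h
  have := deltaLS_mul_deltaInvLS K
  rw [h, zero_mul] at this
  exact zero_ne_one this

theorem mze3_qExpand_ne_zero (n : ℕ) [NeZero n] {f : LaurentSeries K} (hf : f ≠ 0) :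
    qExpand K n f ≠ 0 := fun h => hf (qExpand_injective (R := K) n (by rw [h, map_zero]))

theorem mze3_tkrTw_ne_zero (c : Kˣ) {f : LaurentSeries K} (hf : f ≠ 0) : tkrTw c f ≠ 0 := by
  intro h
  apply hf
  have := congrArg (tkrTw c⁻¹) h
  rwa [← tkrTw_mul_apply, inv_mul_cancel, tkrTw_one_apply, map_zero] at this

/-- **the product formula for `Δ`**: `∏_b Δ(ζ^b q) * Δ(q^{ℓ²}) = ε * Δ(q^ℓ)^{ℓ+1}`,
`ε = ∏_b ζ^b` -/
theorem mze3_delta_prod {l : ℕ} [NeZero l] (hl : l.Prime) {ζ : Kˣ}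
    (hζ : IsPrimitiveRoot (ζ : K) l) :
    (∏ b : Fin l, tkrTw (ζ ^ (b : ℕ)) (deltaLS K)) * qExpand K (l * l) (deltaLS K)
      = HahnSeries.C (∏ b ∈ Finset.range l, (ζ : K) ^ b) * qExpand K l (deltaLS K) ^ (l + 1) := by
  have hE := mze3_eta_prod_LS (K := K) hl hζ
  have h1 : ∀ c : Kˣ, tkrTw c (deltaLS K)
      = HahnSeries.single (1 : ℤ) (c : K) * tkrTw c (eeEtaLS K) ^ 24 := by
    intro c
    rw [deltaLS_eq_eeEtaLS, map_mul, map_pow, tkrTw_single, zpow_one, mul_one]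
  have h2 : ∀ n : ℕ, [NeZero n] → qExpand K n (deltaLS K)
      = HahnSeries.single (n : ℤ) (1 : K) * qExpand K n (eeEtaLS K) ^ 24 := by
    intro n _
    rw [deltaLS_eq_eeEtaLS, map_mul, map_pow, qExpand_single, mul_one]
  have h3 : ∏ b : Fin l, tkrTw (ζ ^ (b : ℕ)) (deltaLS K)
      = HahnSeries.single (l : ℤ) (∏ b ∈ Finset.range l, (ζ : K) ^ b) *
        (∏ b : Fin l, tkrTw (ζ ^ (b : ℕ)) (eeEtaLS K)) ^ 24 := by
    simp only [h1]
    rw [Finset.prod_mul_distrib, Finset.prod_pow,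
      Fin.prod_univ_eq_prod_range (fun b => (HahnSeries.single (1 : ℤ) (((ζ ^ b : Kˣ) : K)) :
        LaurentSeries K)) l]
    simp only [Units.val_pow_eq_pow_val]
    rw [mze3_prod_single]
  have h4 : (HahnSeries.single ((l : ℤ)) (1 : K) : LaurentSeries K) ^ (l + 1)
      = HahnSeries.single ((l : ℤ) + ((l * l : ℕ) : ℤ)) 1 := by
    rw [HahnSeries.single_pow, one_pow]
    congr 1
    push_cast
    simp only [nsmul_eq_mul]
    push_cast
    ring_nf
  rw [h3, h2 (l * l), h2 l, mul_pow, h4]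
  have h5 : (HahnSeries.single (l : ℤ) (∏ b ∈ Finset.range l, (ζ : K) ^ b) : LaurentSeries K)
        * HahnSeries.single (((l * l : ℕ) : ℤ)) (1 : K)
      = HahnSeries.C (∏ b ∈ Finset.range l, (ζ : K) ^ b)
        * HahnSeries.single ((l : ℤ) + ((l * l : ℕ) : ℤ)) 1 := by
    rw [HahnSeries.single_mul_single, mul_one, HahnSeries.C_apply, HahnSeries.single_mul_single,
      zero_add, mul_one]
  calc HahnSeries.single (l : ℤ) (∏ b ∈ Finset.range l, (ζ : K) ^ b) *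
        (∏ b : Fin l, tkrTw (ζ ^ (b : ℕ)) (eeEtaLS K)) ^ 24 *
        (HahnSeries.single (((l * l : ℕ) : ℤ)) (1 : K) * qExpand K (l * l) (eeEtaLS K) ^ 24)
      = (HahnSeries.single (l : ℤ) (∏ b ∈ Finset.range l, (ζ : K) ^ b)
          * HahnSeries.single (((l * l : ℕ) : ℤ)) (1 : K)) *
        ((∏ b : Fin l, tkrTw (ζ ^ (b : ℕ)) (eeEtaLS K)) * qExpand K (l * l) (eeEtaLS K)) ^ 24 := by
        ring
    _ = _ := by
        rw [h5, hE]
        ring

theorem mze3_alg {F : Type*} [Field F] (c R1 R2 Q1 Q2 A1 A2 P1 Pi Pr e : F) (l : ℕ)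
    (hQ1 : Q1 ≠ 0) (hR2 : R2 ≠ 0) (he : e ≠ 0)
    (h1 : A1 * Q1 = 1) (h2 : A2 * Q2 = 1) (h3 : Pi * P1 = 1) (h4 : Pr * R2 = e * R1 ^ (l + 1))
    (h5 : P1 * Q2 = e * Q1 ^ (l + 1)) :
    c ^ (l + 1) * R1 ^ (l + 1) * A1 ^ (l + 1) = (c * R2 * A2) * (c ^ l * Pr * Pi) := by
  have e1 : A1 ^ (l + 1) * Q1 ^ (l + 1) = 1 := by rw [← mul_pow, h1, one_pow]
  have key : (c ^ (l + 1) * R1 ^ (l + 1) * A1 ^ (l + 1)) * (e * Q1 ^ (l + 1) * R2)
      = ((c * R2 * A2) * (c ^ l * Pr * Pi)) * (e * Q1 ^ (l + 1) * R2) := by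
    calc (c ^ (l + 1) * R1 ^ (l + 1) * A1 ^ (l + 1)) * (e * Q1 ^ (l + 1) * R2)
        = c ^ (l + 1) * R2 * (e * R1 ^ (l + 1)) * (A1 ^ (l + 1) * Q1 ^ (l + 1)) := by ring
      _ = c ^ (l + 1) * R2 * (Pr * R2) := by rw [e1, mul_one, h4]
      _ = c ^ (l + 1) * R2 * (Pr * R2) * ((A2 * Q2) * (Pi * P1)) := by rw [h2, h3]; ring
      _ = (c * R2 * A2) * (c ^ l * Pr * Pi) * ((P1 * Q2) * R2) := by ring
      _ = _ := by rw [h5]
  have hne : e * Q1 ^ (l + 1) * R2 ≠ 0 := mul_ne_zero (mul_ne_zero he (pow_ne_zero _ hQ1)) hR2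
  exact mul_right_cancel₀ hne key

/-- the defining identity of `T_ℓ^fun` holds for `U_r ↦ U_r^{ℓ+1}` -/
theorem mze3_unit_spec {l : ℕ} [NeZero l] (hl : l.Prime) {ζ : Kˣ}
    (hζ : IsPrimitiveRoot (ζ : K) l) (r : ℕ) [NeZero r] (hlr : ¬ l ∣ r) (hr0 : (r : K) ≠ 0) :
    qExpand K l (unitInfLS K r ^ (l + 1))
      = qExpand K (l * l) (unitInfLS K r) * ∏ b : Fin l, tkrTw (ζ ^ (b : ℕ)) (unitInfLS K r) := by
  set D := deltaLS K with hD
  set Di := deltaInvLS K with hDi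
  have hDDi : D * Di = 1 := deltaLS_mul_deltaInvLS K
  have hD0 : D ≠ 0 := mze3_deltaLS_ne_zero
  -- the product formula at `ζ` and at `ζ^r`
  have hζr : IsPrimitiveRoot ((ζ ^ r : Kˣ) : K) l := by
    rw [Units.val_pow_eq_pow_val]
    exact hζ.pow_of_coprime r ((Nat.Prime.coprime_iff_not_dvd hl).mpr hlr).symm
  have hP := mze3_delta_prod (K := K) hl hζ
  set ε : K := ∏ b ∈ Finset.range l, (ζ : K) ^ b with hε
  have hε0 : ε ≠ 0 := by
    rw [hε]
    exact Finset.prod_ne_zero_iff.mpr fun b _ => pow_ne_zero _ ζ.ne_zero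
  set PP1 : LaurentSeries K := ∏ b : Fin l, tkrTw (ζ ^ (b : ℕ)) D with hPP1
  -- the twists of `Δ(q^r)`
  have hPPr : ∏ b : Fin l, tkrTw (ζ ^ (b : ℕ)) (qExpand K r D) = qExpand K r PP1 := by
    rw [hPP1, map_prod]
    have h1 : ∀ b : Fin l, tkrTw (ζ ^ (b : ℕ)) (qExpand K r D)
        = qExpand K r (tkrTw ((ζ ^ r) ^ (b : ℕ)) D) := by
      intro b
      rw [tkrTw_qExpand, ← pow_mul, ← pow_mul, mul_comm]
    simp only [h1]
    rw [← map_prod, ← map_prod]
    congr 1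
    exact tkr_prod_pow_eq hζ hζr (fun c => tkrTw c D)
  -- the twists of `Δ⁻¹`
  have hPPi : (∏ b : Fin l, tkrTw (ζ ^ (b : ℕ)) Di) * PP1 = 1 := by
    rw [hPP1, ← Finset.prod_mul_distrib]
    refine Finset.prod_eq_one fun b _ => ?_
    rw [← map_mul, mul_comm, hDDi, map_one]
  have hPP10 : PP1 ≠ 0 := by
    rw [hPP1]
    exact Finset.prod_ne_zero_iff.mpr fun b _ => mze3_tkrTw_ne_zero _ hD0
  -- notation for the expansions
  set Q1 := qExpand K l D with hQ1
  set Q2 := qExpand K (l * l) D with hQ2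
  have hQ10 : Q1 ≠ 0 := mze3_qExpand_ne_zero l hD0
  have hQ20 : Q2 ≠ 0 := mze3_qExpand_ne_zero (l * l) hD0
  have hP' : PP1 * Q2 = HahnSeries.C ε * Q1 ^ (l + 1) := hP
  have hPr : qExpand K r PP1 * qExpand K r Q2 = HahnSeries.C ε * qExpand K r Q1 ^ (l + 1) := by
    rw [← map_mul, hP', map_mul, qExpand_C, map_pow]
  have hCε0 : (HahnSeries.C ε : LaurentSeries K) ≠ 0 := by
    intro h
    have h1 := congrArg (fun s : LaurentSeries K => s.coeff 0) h
    simp only [HahnSeries.C_apply, HahnSeries.coeff_single_same, HahnSeries.coeff_zero] at h1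
    exact hε0 h1
  -- expansions of `Δ⁻¹`
  have hinv : ∀ n : ℕ, [NeZero n] → qExpand K n Di * qExpand K n D = 1 := by
    intro n _
    rw [← map_mul, mul_comm, hDDi, map_one]
  -- unfold `U`
  have hU : unitInfLS K r = HahnSeries.C ((r : K) ^ 12) * qExpand K r D * Di := rfl
  rw [hU]
  simp only [map_mul, map_pow, qExpand_C, tkrTw_C, Finset.prod_mul_distrib, Finset.prod_const,
    Finset.card_univ, Fintype.card_fin, mul_pow]
  rw [hPPr, qExpand_qExpand, qExpand_qExpand]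
  -- everything in terms of `R1 = Δ(q^{lr})`, `R2 = Δ(q^{llr})`
  have hR1 : qExpand K r Q1 = qExpand K (l * r) D := by
    rw [hQ1, qExpand_qExpand]; exact qExpand_congr (mul_comm r l) _
  have hR2 : qExpand K r Q2 = qExpand K (l * l * r) D := by
    rw [hQ2, qExpand_qExpand]; exact qExpand_congr (mul_comm r (l * l)) _
  rw [hR1, hR2] at hPr
  set R1 := qExpand K (l * r) D with hR1'
  set R2 := qExpand K (l * l * r) D with hR2'
  have hR20 : R2 ≠ 0 := mze3_qExpand_ne_zero (l * l * r) hD0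
  set A1 := qExpand K l Di with hA1
  set A2 := qExpand K (l * l) Di with hA2
  have hA1Q : A1 * Q1 = 1 := hinv l
  have hA2Q : A2 * Q2 = 1 := hinv (l * l)
  set PPi := ∏ b : Fin l, tkrTw (ζ ^ (b : ℕ)) Di with hPPi'
  set PPr := qExpand K r PP1 with hPPr'
  -- the algebra
  exact mze3_alg (HahnSeries.C (r : K) ^ 12) R1 R2 Q1 Q2 A1 A2 PP1 PPi PPr (HahnSeries.C ε) l
    hQ10 hR20 hCε0 hA1Q hA2Q hPPi hPr hP'

end LS

end Fermat.Agent.Mazur
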