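/-
MAZUR (Track M), package (E3) (lead), part 3c: **the cuspidal class is Eisenstein**:
`T_q c = (1 + q) • c` for every prime `q ≠ p`.

* `mze3_hecke_U` : `T_ℓ^fun U_r = U_r^{ℓ+1}` in the function field of `X₀(N)` (`r ∣ N`, `ℓ ∤ N`);
* `mze3_class_U` : the Kummer class `[div(U_p)/(p-1)]` is `-c`;
* `mze3_hecke`   : `heckeOperatorBar p q (mzcCusp p) = (1 + q) • mzcCusp p`.
-/
import Fermat.Agent.Lib.Mazur.E.Cusp3.UnitHecke
import Fermat.Agent.Lib.Mazur.E.Cusp3.DivU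
import Fermat.Agent.Lib.Delta.Wire.HeckeClass

set_option autoImplicit false
set_option linter.style.haveILetI false
set_option linter.unusedSectionVars false
set_option linter.unusedVariables false
set_option synthInstance.maxHeartbeats 400000

open HahnSeries ModularCurve AlgebraicCurve Fermat.Agent.T1 Fermat.Agent.Igusa Fermat.Agent.Alpha
  Fermat.Agent.Curve

noncomputable section

namespace Fermat.Agent.Mazur

local notation "Qb" => AlgebraicClosure ℚ

/-- **`T_ℓ^fun U_r = U_r ^ (ℓ + 1)`** -/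
theorem mze3_hecke_U (N r : ℕ) [NeZero N] [NeZero r] (hr : r ∣ N) {l : ℕ} (hl : l.Prime)
    (hlN : ¬ l ∣ N) : tkrHecke N l (mzgU N r hr) = mzgU N r hr ^ (l + 1) := by
  haveI : NeZero l := ⟨hl.ne_zero⟩
  obtain ⟨ζ, hζ, -⟩ := tkr_exists_zeta l
  refine tkrHecke_eq_of_spec hl hlN hζ _ _ ?_
  have hcoe : ((mzgU N r hr ^ (l + 1) : ↥(modularFunctionFieldBar N)) : LaurentSeries Qb)
      = unitInfLS Qb r ^ (l + 1) := by
    rw [IntermediateField.coe_pow, coe_mzgU]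
  rw [hcoe, coe_mzgU]
  exact mze3_unit_spec hl hζ r (fun h => hlN (h.trans hr)) (Nat.cast_ne_zero.mpr (NeZero.ne r))

/-! ### Kummer classes of powers -/

section Pow

variable {K F : Type*} [Field K] [Field F] [Algebra K F] [HasPrincipalDivisors K F]

theorem mze3_alpfClass_pow {m : ℕ} (hm : m ≠ 0) (y : Fˣ)
    (hy : ∀ v : Place K F, (m : ℤ) ∣ v.ord (y : F)) (n : ℕ)
    (hy' : ∀ v : Place K F, (m : ℤ) ∣ v.ord ((y ^ n : Fˣ) : F)) :
    alpfClass hm (y ^ n) hy' = n • alpfClass hm y hy := by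
  unfold alpfClass Pic0.mk
  rw [← QuotientAddGroup.mk_nsmul]
  congr 1
  apply Subtype.ext
  rw [AddSubgroup.coe_nsmul]
  ext v
  rw [Finsupp.smul_apply, alpfDivQuot_apply, alpfDivQuot_apply, Units.val_pow_eq_pow_val,
    ← zpow_natCast, v.ord_zpow, nsmul_eq_mul]
  obtain ⟨k, hk⟩ := hy v
  have hm' : (m : ℤ) ≠ 0 := by exact_mod_cast hm
  rw [hk, Int.mul_ediv_cancel_left _ hm', ← mul_assoc, mul_comm ((n : ℕ) : ℤ) (m : ℤ), mul_assoc,
    Int.mul_ediv_cancel_left _ hm']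

end Pow

variable (p : ℕ) [hp : Fact p.Prime]

/-- the modular unit `U_p` as a unit of the function field -/
def mze3Unit : (↥(modularFunctionFieldBar p))ˣ := Units.mk0 (mzgpU p) (mze3_U_ne_zero p)

theorem mze3_p_sub_one_ne_zero : p - 1 ≠ 0 := by
  have := hp.out.two_le
  omega

theorem mze3_cast_sub_one : ((p - 1 : ℕ) : ℤ) = (p : ℤ) - 1 := by
  have := hp.out.one_le
  push_cast [Nat.cast_sub this]
  ring

theorem mze3_unit_dvd (v : Place Qb ↥(modularFunctionFieldBar p)) :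
    ((p - 1 : ℕ) : ℤ) ∣ v.ord ((mze3Unit p : (↥(modularFunctionFieldBar p))ˣ) :
      ↥(modularFunctionFieldBar p)) := by
  show ((p - 1 : ℕ) : ℤ) ∣ v.ord (mzgpU p)
  rw [mze3_cast_sub_one]
  by_cases hv1 : v = mzcInf p
  · rw [hv1, mze3_ord_inf_U]
  · by_cases hv2 : v = mzcZero p
    · rw [hv2, mze3_ord_zero_U]
      exact dvd_neg.mpr dvd_rfl
    · rw [mze3_ord_U_of_ne p v hv1 hv2]
      exact dvd_zero _

/-- the Kummer class `[div(U_p)/(p-1)]` is `[(∞) - (0)] = -c` -/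
theorem mze3_class_U :
    alpfClass (mze3_p_sub_one_ne_zero p) (mze3Unit p) (mze3_unit_dvd p) = -mzcCusp p := by
  rw [mzcCusp, mzcCls_neg, mzcCls]
  unfold alpfClass
  congr 1
  apply Subtype.ext
  ext v
  show alpfDivQuot (K := Qb) (p - 1) (mze3Unit p) v = _
  rw [alpfDivQuot_apply]
  show v.ord (mzgpU p) / ((p - 1 : ℕ) : ℤ) = _
  have hne := mze3_inf_ne_zero p
  have hp1 : ((p : ℤ) - 1) ≠ 0 := by
    have := hp.out.two_le
    have : (2 : ℤ) ≤ p := by exact_mod_cast this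
    omega
  rw [mze3_cast_sub_one, Finsupp.sub_apply]
  by_cases hv1 : v = mzcInf p
  · subst hv1
    rw [mze3_ord_inf_U, Finsupp.single_eq_same, Finsupp.single_eq_of_ne hne, Int.ediv_self hp1]
    norm_num
  · by_cases hv2 : v = mzcZero p
    · subst hv2
      rw [mze3_ord_zero_U, Finsupp.single_eq_same, Finsupp.single_eq_of_ne hne.symm,
        Int.neg_ediv_of_dvd dvd_rfl, Int.ediv_self hp1]
      norm_num
    · rw [mze3_ord_U_of_ne p v hv1 hv2, Finsupp.single_eq_of_ne hv1, Finsupp.single_eq_of_ne hv2]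
      norm_num

/-- **the cuspidal class is Eisenstein**: `T_q c = (1 + q) • c` for every prime `q ≠ p` -/
theorem mze3_hecke (q : Nat.Primes) (hq : (q : ℕ) ≠ p) :
    heckeOperatorBar p q (mzcCusp p) = (1 + (q : ℕ)) • mzcCusp p := by
  haveI : NeZero (q : ℕ) := ⟨q.2.ne_zero⟩
  have hqp : ¬ (q : ℕ) ∣ p := fun h =>
    hq ((Nat.prime_dvd_prime_iff_eq q.2 hp.out).mp h)
  have hm := mze3_p_sub_one_ne_zero p
  have hTU : tkrHeckeUnits p (q : ℕ) (mze3Unit p) = mze3Unit p ^ ((q : ℕ) + 1) := by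
    apply Units.ext
    rw [tkrHeckeUnits_coe, Units.val_pow_eq_pow_val]
    exact mze3_hecke_U p p (dvd_refl p) q.2 hqp
  have hdvd' : ∀ v : Place Qb ↥(modularFunctionFieldBar p), ((p - 1 : ℕ) : ℤ) ∣
      v.ord ((tkrHeckeUnits p (q : ℕ) (mze3Unit p) : (↥(modularFunctionFieldBar p))ˣ) :
        ↥(modularFunctionFieldBar p)) :=
    Fermat.Agent.Delta.dlw_hecke_dvd p q.2 hqp (mze3Unit p) (mze3_unit_dvd p)
  have h1 := Fermat.Agent.Delta.dlw_class_hecke p q.2 hqp hm (mze3Unit p) (mze3_unit_dvd p) hdvd'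
  have hdvd'' : ∀ v : Place Qb ↥(modularFunctionFieldBar p), ((p - 1 : ℕ) : ℤ) ∣
      v.ord ((mze3Unit p ^ ((q : ℕ) + 1) : (↥(modularFunctionFieldBar p))ˣ) :
        ↥(modularFunctionFieldBar p)) := by
    intro v
    rw [← hTU]
    exact hdvd' v
  have h2 : alpfClass hm (tkrHeckeUnits p (q : ℕ) (mze3Unit p)) hdvd'
      = alpfClass hm (mze3Unit p ^ ((q : ℕ) + 1)) hdvd'' := by
    congr 1
  rw [h2, mze3_alpfClass_pow hm (mze3Unit p) (mze3_unit_dvd p) ((q : ℕ) + 1) hdvd'',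
    mze3_class_U] at h1
  have h3 : (⟨(q : ℕ), q.2⟩ : Nat.Primes) = q := rfl
  rw [h3, map_neg] at h1
  have h4 : -(heckeOperatorBar p q) (mzcCusp p) = -(((q : ℕ) + 1) • mzcCusp p) :=
    h1.trans (neg_nsmul _ _)
  rw [neg_inj.mp h4, add_comm]

end Fermat.Agent.Mazur
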