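/-
MAZUR (Track M), package (E3) (lead), part 1: **the divisor of the modular unit
`U_p = p^12 Δ(pτ)/Δ(τ)` on `X₀(p)` and the order of the cuspidal class**.

* `mze3_ord_U_of_nonneg` : `U_p` is a unit at every place where `j` is finite
  (`Ψ_p(X, j)` is monic in `X` with constant term `p^12`);
* `mze3_cusps` : the poles of `j` are exactly the cusps `∞` (simple) and `0` (order `p`);
* `mze3_ord_inf_U`, `mze3_ord_zero_U` : `div U_p = (p - 1)((∞) - (0))`;
* `mze3_cusp_torsion` : `(p - 1) • c = 0` for the cuspidal class `c = [(0) - (∞)]`.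
-/
import Fermat.Agent.Lib.Mazur.Cusp.Defs
import Fermat.Agent.Lib.Mazur.G.Ns.Fixed
import Fermat.Agent.Lib.Mazur.G.NP.Shape
import Fermat.Agent.Lib.S24.ModInfty

set_option autoImplicit false
set_option linter.style.haveILetI false
set_option linter.unusedSectionVars false
set_option linter.unusedVariables false
set_option synthInstance.maxHeartbeats 400000

open HahnSeries ModularCurve AlgebraicCurve Polynomial Fermat.Agent.T1 Fermat.Agent.T2
  Fermat.Agent.Curve Fermat.Agent.Curve.PlaceAux Fermat.Agent.Igusa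

noncomputable section

namespace Fermat.Agent.Mazur

local notation "Qb" => AlgebraicClosure ℚ
local notation "GQ" => (AlgebraicClosure ℚ ≃ₐ[ℚ] AlgebraicClosure ℚ)

variable (p : ℕ) [hp : Fact p.Prime]

/-! ### `U_p` is a unit where `j` is finite -/

theorem mze3_ord_U_of_nonneg (x : Place Qb ↥(modularFunctionFieldBar p))
    (hx : 0 ≤ x.ord (tbJ p)) : x.ord (mzgpU p) = 0 := by
  have hj : tbJ p ∈ x.toValuationSubring := mem_of_ord_nonneg x hx
  set a : ↥x.toValuationSubring := ⟨tbJ p, hj⟩ with ha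
  set φ : Qb[X] →+* ↥x.toValuationSubring :=
    ((aeval a : Qb[X] →ₐ[Qb] ↥x.toValuationSubring) : Qb[X] →+* ↥x.toValuationSubring) with hφ
  set g : (↥x.toValuationSubring)[X] := (modPsiK p hp.out Qb).map φ with hg
  have hgm : g.Monic := (modPsiK_monic p hp.out Qb).map _
  have hcomp : (x.toValuationSubring.subtype).comp φ =
      ((aeval (tbJ p) : Qb[X] →ₐ[Qb] ↥(modularFunctionFieldBar p)) : Qb[X] →+* _) := by
    apply Polynomial.ringHom_ext
    · intro c
      simp only [hφ, RingHom.coe_comp, Function.comp_apply, RingHom.coe_coe, aeval_C]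
      rfl
    · simp only [hφ, RingHom.coe_comp, Function.comp_apply, RingHom.coe_coe, aeval_X]
      rfl
  have hroot : g.eval₂ (x.toValuationSubring.subtype) (mzgpU p) = 0 := by
    rw [hg, Polynomial.eval₂_map, hcomp, Polynomial.eval₂_eq_eval_map]
    exact mzgn_modPsi_eval p hp.out
  have hint : IsIntegral ↥x.toValuationSubring (mzgpU p) := ⟨g, hgm, hroot⟩
  obtain ⟨u, hu⟩ := IsIntegrallyClosed.isIntegral_iff.1 hint
  have hu' : ((u : ↥x.toValuationSubring) : ↥(modularFunctionFieldBar p)) = mzgpU p := hu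
  have hev : g.eval u = 0 := by
    apply Subtype.val_injective
    have h1 : x.toValuationSubring.subtype (g.eval u) = g.eval₂ (x.toValuationSubring.subtype)
        (x.toValuationSubring.subtype u) := by
      rw [Polynomial.eval, Polynomial.hom_eval₂, RingHom.comp_id]
    show x.toValuationSubring.subtype (g.eval u) = _
    rw [h1]
    show g.eval₂ _ ((u : ↥x.toValuationSubring) : ↥(modularFunctionFieldBar p)) = _
    rw [hu', hroot]
    rfl
  have hc0 : g.coeff 0 = algebraMap Qb ↥x.toValuationSubring ((p : Qb) ^ 12) := by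
    rw [hg, coeff_map, mzg_modPsiK_coeff, mzg_modPsi_coeff_zero, Polynomial.map_C, hφ]
    simp
  have hsplit := Polynomial.divX_mul_X_add g
  have h2 : (Polynomial.divX g).eval u * u + algebraMap Qb ↥x.toValuationSubring ((p : Qb) ^ 12)
      = 0 := by
    rw [← hc0, ← hev]
    conv_rhs => rw [← hsplit]
    simp
  have hp12 : ((p : Qb) ^ 12) ≠ 0 := pow_ne_zero 12 (Nat.cast_ne_zero.mpr hp.out.ne_zero)
  have hunit : IsUnit u := by
    refine isUnit_iff_exists_inv.mpr
      ⟨-(Polynomial.divX g).eval u * algebraMap Qb ↥x.toValuationSubring (((p : Qb) ^ 12)⁻¹), ?_⟩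
    have h3 : (Polynomial.divX g).eval u * u
        = -algebraMap Qb ↥x.toValuationSubring ((p : Qb) ^ 12) := eq_neg_of_add_eq_zero_left h2
    calc u * (-(Polynomial.divX g).eval u * algebraMap Qb ↥x.toValuationSubring (((p : Qb) ^ 12)⁻¹))
        = -((Polynomial.divX g).eval u * u) * algebraMap Qb ↥x.toValuationSubring (((p : Qb) ^ 12)⁻¹) := by
          ring
      _ = 1 := by
          rw [h3, neg_neg, ← map_mul, mul_inv_cancel₀ hp12, map_one]
  obtain ⟨w, hw⟩ := hunit
  rw [← hu', ← hw]
  exact x.ord_coe_unit w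

/-! ### orders at the two cusps -/

theorem mze3_order_U :
    ((mzgpU p : ↥(modularFunctionFieldBar p)) : LaurentSeries Qb).order = (p : ℤ) - 1 := by
  rw [coe_mzgpU, coeffEmb, Fermat.Agent.T1.tdx_order_coeffMap, unitInfLS_rat]
  have hm := isMonicOfOrder_modularUnitSeries p
  have hne : modularUnitSeries p ≠ 0 := hm.ne_zero
  have hC : (HahnSeries.C ((p : ℚ) ^ 12) : LaurentSeries ℚ) ≠ 0 := by
    intro h
    have h1 := congrArg (fun s : LaurentSeries ℚ => s.coeff 0) h
    simp only [HahnSeries.C_apply, HahnSeries.coeff_single_same, HahnSeries.coeff_zero] at h1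
    exact pow_ne_zero 12 (Nat.cast_ne_zero.mpr hp.out.ne_zero) h1
  have hinv : (modularUnitSeries p)⁻¹ ≠ 0 := inv_ne_zero hne
  rw [HahnSeries.order_mul hC hinv]
  have h1 : (HahnSeries.C ((p : ℚ) ^ 12) : LaurentSeries ℚ).order = 0 := by
    rw [HahnSeries.C_apply]
    exact HahnSeries.order_single (pow_ne_zero 12 (Nat.cast_ne_zero.mpr hp.out.ne_zero))
  have h2 : (modularUnitSeries p).order + ((modularUnitSeries p)⁻¹).order = 0 := by
    rw [← HahnSeries.order_mul hne hinv, mul_inv_cancel₀ hne, HahnSeries.order_one]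
  rw [hm.1] at h2
  rw [h1]
  omega

theorem mze3_ord_inf_U : (mzcInf p).ord (mzgpU p) = (p : ℤ) - 1 := by
  rw [mzcInf_ord, mze3_order_U]

theorem mze3_ord_zero_tbJ : (mzcZero p).ord (tbJ p) = -(p : ℤ) := by
  rw [mzcZero_ord, mzcW_tbJ, coe_mzcJp]
  have hne : jqModC Qb ≠ 0 := by
    intro h
    have := Fermat.Agent.Eis.eh_order_jqModC (R := Qb)
    rw [h, HahnSeries.order_zero] at this
    omega
  rw [Fermat.Agent.S24Lib.order_qExpand p hne, Fermat.Agent.Eis.eh_order_jqModC]
  ring

theorem mze3_inf_ne_zero : mzcInf p ≠ mzcZero p := by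
  intro h
  have h1 := mzcInf_ord_tbJ p
  rw [h, mze3_ord_zero_tbJ] at h1
  have := hp.out.one_lt
  omega

/-- **the poles of `j`** on `X₀(p)` are exactly the two cusps -/
theorem mze3_cusps (x : Place Qb ↥(modularFunctionFieldBar p)) (hx : x.ord (tbJ p) < 0) :
    x = mzcInf p ∨ x = mzcZero p := by
  classical
  have hgen := mzc_isFunctionFieldGen p
  have hfin := Fermat.Agent.Curve.finite_poles hgen
  have hsum := Fermat.Agent.Curve.sum_ord_poles hgen
  rw [mzgn_finrank p hp.out, finsum_mem_eq_finite_toFinset_sum _ hfin] at hsum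
  by_contra hcon
  push Not at hcon
  have hmem : ∀ w : Place Qb ↥(modularFunctionFieldBar p),
      w ∈ hfin.toFinset ↔ w.ord (tbJ p) < 0 := fun w => by
    rw [Set.Finite.mem_toFinset, Set.mem_ofPred_eq]
  have h1 : mzcInf p ∈ hfin.toFinset := by
    rw [hmem, mzcInf_ord_tbJ]; norm_num
  have h2 : mzcZero p ∈ hfin.toFinset := by
    rw [hmem, mze3_ord_zero_tbJ]
    have := hp.out.pos
    omega
  have h3 : x ∈ hfin.toFinset := (hmem x).mpr hx
  have hsub : ({mzcInf p, mzcZero p, x} : Finset (Place Qb ↥(modularFunctionFieldBar p))) ⊆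
      hfin.toFinset := by
    intro w hw
    simp only [Finset.mem_insert, Finset.mem_singleton] at hw
    rcases hw with rfl | rfl | rfl
    · exact h1
    · exact h2
    · exact h3
  have hle := Finset.sum_le_sum_of_subset_of_nonneg
    (f := fun w : Place Qb ↥(modularFunctionFieldBar p) => -w.ord (tbJ p)) hsub (fun w hw _ => by
      have := (hmem w).mp hw
      omega)
  rw [hsum] at hle
  rw [Finset.sum_insert (by
      simp only [Finset.mem_insert, Finset.mem_singleton, not_or]
      exact ⟨mze3_inf_ne_zero p, hcon.1.symm⟩),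
    Finset.sum_insert (by
      simp only [Finset.mem_singleton]
      exact hcon.2.symm),
    Finset.sum_singleton, mzcInf_ord_tbJ, mze3_ord_zero_tbJ] at hle
  push_cast at hle
  omega

/-- `U_p` has no zeros or poles away from the two cusps -/
theorem mze3_ord_U_of_ne (x : Place Qb ↥(modularFunctionFieldBar p)) (h1 : x ≠ mzcInf p)
    (h2 : x ≠ mzcZero p) : x.ord (mzgpU p) = 0 := by
  apply mze3_ord_U_of_nonneg
  by_contra hcon
  push Not at hcon
  rcases mze3_cusps p x hcon with h | h
  · exact h1 h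
  · exact h2 h

theorem mze3_U_ne_zero : mzgpU p ≠ 0 := by
  intro h
  have h1 := mze3_ord_inf_U p
  rw [h, Place.ord_zero] at h1
  have := hp.out.one_lt
  omega

/-- `ord_0 U_p = -(p - 1)` (the degree of a principal divisor is zero) -/
theorem mze3_ord_zero_U : (mzcZero p).ord (mzgpU p) = -((p : ℤ) - 1) := by
  classical
  have hgen := mzc_isFunctionFieldGen p
  have hU := mze3_U_ne_zero p
  have hD : divOf hgen (mzgpU p) = Finsupp.single (mzcInf p) ((p : ℤ) - 1)
      + Finsupp.single (mzcZero p) ((mzcZero p).ord (mzgpU p)) := by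
    ext v
    rw [divOf_apply hgen hU, Finsupp.add_apply]
    by_cases hv1 : v = mzcInf p
    · subst hv1
      rw [Finsupp.single_eq_same, Finsupp.single_eq_of_ne (mze3_inf_ne_zero p), add_zero,
        mze3_ord_inf_U]
    · by_cases hv2 : v = mzcZero p
      · subst hv2
        rw [Finsupp.single_eq_same, Finsupp.single_eq_of_ne (mze3_inf_ne_zero p).symm, zero_add]
      · rw [Finsupp.single_eq_of_ne hv1, Finsupp.single_eq_of_ne hv2, add_zero,
          mze3_ord_U_of_ne p v hv1 hv2]
  have hdeg := degree_divOf hgen (mzgpU p)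
  rw [hD, map_add, Divisor.degree_single, Divisor.degree_single, PlaceAux.deg_eq_one hgen,
    PlaceAux.deg_eq_one hgen] at hdeg
  push_cast at hdeg
  omega

/-- **`(p - 1) • c = 0`** for the cuspidal class `c = [(0) - (∞)]` -/
theorem mze3_cusp_torsion : (p - 1) • mzcCusp p = 0 := by
  have hgen := mzc_isFunctionFieldGen p
  have hU := mze3_U_ne_zero p
  rw [mzcCusp, mzcCls]
  have h1 : (p - 1) • (Pic0.mk ⟨Finsupp.single (mzcZero p) 1 - Finsupp.single (mzcInf p) 1,
      mzc_sub_mem_degZero p (mzcZero p) (mzcInf p)⟩ : JZero p)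
      = Pic0.mk ((p - 1) • ⟨Finsupp.single (mzcZero p) 1 - Finsupp.single (mzcInf p) 1,
      mzc_sub_mem_degZero p (mzcZero p) (mzcInf p)⟩) := rfl
  rw [h1]
  apply (QuotientAddGroup.eq_zero_iff _).mpr
  rw [AddSubgroup.mem_addSubgroupOf, Divisor.mem_principal]
  refine ⟨(mzgpU p)⁻¹, inv_ne_zero hU, fun v => ?_⟩
  rw [Place.ord_inv]
  have hp1 : ((p - 1 : ℕ) : ℤ) = (p : ℤ) - 1 := by
    have := hp.out.one_le
    push_cast [Nat.cast_sub this]
    ring
  simp only [AddSubgroup.coe_nsmul, Finsupp.smul_apply, Finsupp.sub_apply, nsmul_eq_mul]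
  by_cases hv1 : v = mzcInf p
  · subst hv1
    rw [Finsupp.single_eq_same, Finsupp.single_eq_of_ne (mze3_inf_ne_zero p), mze3_ord_inf_U, hp1]
    ring
  · by_cases hv2 : v = mzcZero p
    · subst hv2
      rw [Finsupp.single_eq_same, Finsupp.single_eq_of_ne (mze3_inf_ne_zero p).symm, mze3_ord_zero_U, hp1]
      ring
    · rw [Finsupp.single_eq_of_ne hv1, Finsupp.single_eq_of_ne hv2, mze3_ord_U_of_ne p v hv1 hv2]
      ring

/-- the same under the name used by the consumer (H) -/
theorem mze3_order : (p - 1) • mzcCusp p = 0 := mze3_cusp_torsion p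

end Fermat.Agent.Mazur
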