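/-
MAZUR (Track M), package (E3) (lead), part 3a: **the Hecke product formula for the Euler product
`P(X) = ∏ (1 - X^n)`** in power series over a field containing a primitive `ℓ`-th root of unity
`ζ` (`ℓ` prime):

  `∏_{b < ℓ} P(ζ^b X) * P(X^{ℓ²}) = P(X^ℓ)^{ℓ+1}`.

(`mze3_eta_prod`.)  The infinite products are Mathlib's `tprod` for the pi-topology on power series
(with the discrete topology on the coefficients); the final statement does not mention topology.
-/
import Mathlib
import Fermat.Prelude.Def_ModularCurve_X0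

set_option autoImplicit false
set_option linter.style.haveILetI false
set_option linter.unusedSectionVars false

open PowerSeries Filter

noncomputable section

namespace Fermat.Agent.Mazur

section Top

open scoped PowerSeries.WithPiTopology

variable {K : Type*} [Field K] [TopologicalSpace K] [DiscreteTopology K]

/-- continuity into power series can be checked coefficientwise -/
theorem mze3_continuous_of_coeff {Y : Type*} [TopologicalSpace Y] (g : Y → K⟦X⟧)
    (h : ∀ d, Continuous fun y => coeff d (g y)) : Continuous g := by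
  rw [continuous_iff_continuousAt]
  intro y
  exact (PowerSeries.WithPiTopology.tendsto_iff_coeff_tendsto K g _ _).2
    fun d => (h d).continuousAt

theorem mze3_continuous_rescale (c : K) : Continuous (rescale c : K⟦X⟧ → K⟦X⟧) := by
  apply mze3_continuous_of_coeff
  intro d
  simp only [coeff_rescale]
  exact continuous_const.mul (PowerSeries.WithPiTopology.continuous_coeff K d)

theorem mze3_continuous_expand (l : ℕ) (hl : l ≠ 0) :
    Continuous (expand l hl : K⟦X⟧ → K⟦X⟧) := by
  apply mze3_continuous_of_coeff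
  intro d
  by_cases hd : l ∣ d
  · obtain ⟨m, rfl⟩ := hd
    simp only [coeff_expand_mul]
    exact PowerSeries.WithPiTopology.continuous_coeff K m
  · simp only [coeff_expand_of_not_dvd l hl _ hd]
    exact continuous_const

theorem mze3_continuous_map_int :
    Continuous (PowerSeries.map (Int.castRingHom K) : ℤ⟦X⟧ → K⟦X⟧) := by
  apply mze3_continuous_of_coeff
  intro d
  simp only [coeff_map]
  exact (continuous_of_discreteTopology (f := fun n : ℤ => (Int.castRingHom K) n)).comp
    (PowerSeries.WithPiTopology.continuous_coeff ℤ d)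

/-- families `u n ≡ 1 mod X^(n+1)` -/
def Mze3Good (u : ℕ → K⟦X⟧) : Prop := ∀ n, (X : K⟦X⟧) ^ (n + 1) ∣ u n - 1

theorem Mze3Good.multipliable {u : ℕ → K⟦X⟧} (h : Mze3Good u) : Multipliable u := by
  have hu : u = fun n => 1 + (u n - 1) := by funext n; ring
  rw [hu]
  apply PowerSeries.WithPiTopology.multipliable_one_add_of_tendsto_order_atTop_nhds_top
  refine ENat.tendsto_nhds_top_iff_natCast_lt.mpr fun N => eventually_atTop.mpr ⟨N, ?_⟩
  intro m hm
  have h1 : ((m + 1 : ℕ) : ℕ∞) ≤ (u m - 1).order :=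
    nat_le_order _ _ (X_pow_dvd_iff.1 (h m))
  refine lt_of_lt_of_le ?_ h1
  exact_mod_cast Nat.lt_succ_of_le hm

theorem mze3Good_base : Mze3Good fun n => (1 : K⟦X⟧) - X ^ (n + 1) := by
  intro n
  exact ⟨-1, by ring⟩

theorem Mze3Good.ite {u : ℕ → K⟦X⟧} (h : Mze3Good u) (P : ℕ → Prop) [DecidablePred P] :
    Mze3Good fun n => if P n then u n else 1 := by
  intro n
  by_cases hP : P n
  · simp only [hP, if_true]; exact h n
  · simp only [hP, if_false, sub_self]; exact dvd_zero _

theorem Mze3Good.ite' {u : ℕ → K⟦X⟧} (h : Mze3Good u) (P : ℕ → Prop) [DecidablePred P] :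
    Mze3Good fun n => if P n then 1 else u n := by
  intro n
  by_cases hP : P n
  · simp only [hP, if_true, sub_self]; exact dvd_zero _
  · simp only [hP, if_false]; exact h n

theorem Mze3Good.pow {u : ℕ → K⟦X⟧} (h : Mze3Good u) (l : ℕ) :
    Mze3Good fun n => u n ^ l := by
  intro n
  have := sub_dvd_pow_sub_pow (u n) 1 l
  rw [one_pow] at this
  exact (h n).trans this

theorem Mze3Good.expand {u : ℕ → K⟦X⟧} (h : Mze3Good u) (l : ℕ) (hl : l ≠ 0) :
    Mze3Good fun n => PowerSeries.expand l hl (u n) := by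
  intro n
  obtain ⟨w, hw⟩ := h n
  have h1 : PowerSeries.expand l hl (u n) - 1 = PowerSeries.expand l hl (u n - 1) := by
    rw [map_sub, map_one]
  rw [h1, hw, map_mul, map_pow, expand_X, ← pow_mul]
  have hle : n + 1 ≤ l * (n + 1) := Nat.le_mul_of_pos_left _ (Nat.pos_of_ne_zero hl)
  exact Dvd.dvd.mul_right (pow_dvd_pow _ hle) _

theorem Mze3Good.rescale {u : ℕ → K⟦X⟧} (h : Mze3Good u) (c : K) :
    Mze3Good fun n => PowerSeries.rescale c (u n) := by
  intro n
  obtain ⟨w, hw⟩ := h n
  have h1 : PowerSeries.rescale c (u n) - 1 = PowerSeries.rescale c (u n - 1) := by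
    rw [map_sub, map_one]
  rw [h1, hw, map_mul, map_pow, rescale_X, mul_pow, mul_assoc, mul_comm, mul_assoc]
  exact Dvd.intro _ rfl

theorem Mze3Good.finsetProd {ι : Type*} (s : Finset ι) {u : ι → ℕ → K⟦X⟧}
    (h : ∀ i ∈ s, Mze3Good (u i)) : Mze3Good fun n => ∏ i ∈ s, u i n := by
  classical
  induction s using Finset.induction_on with
  | empty => intro n; simp
  | insert a s ha ih =>
    intro n
    simp only [Finset.prod_insert ha]
    have h1 := h a (Finset.mem_insert_self a s) n
    have h2 := ih (fun i hi => h i (Finset.mem_insert_of_mem hi)) n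
    have : u a n * ∏ i ∈ s, u i n - 1 = (u a n - 1) * ∏ i ∈ s, u i n + (∏ i ∈ s, u i n - 1) := by
      ring
    rw [this]
    exact dvd_add (Dvd.dvd.mul_right h1 _) h2

/-- the Euler product over `K` -/
def mze3Eta (K : Type*) [Field K] : K⟦X⟧ := ModularCurve.etaProd.map (Int.castRingHom K)

theorem mze3Eta_eq_tprod : mze3Eta K = ∏' n : ℕ, ((1 : K⟦X⟧) - X ^ (n + 1)) := by
  rw [mze3Eta, ModularCurve.etaProd,
    (PowerSeries.WithPiTopology.multipliable_one_sub_X_pow ℤ).map_tprod
      (PowerSeries.map (Int.castRingHom K)) mze3_continuous_map_int]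
  congr 1
  funext n
  simp

/-- reindexing a product supported on the multiples of `l` -/
theorem mze3_tprod_dvd (l : ℕ) (hl : 0 < l) (u : ℕ → K⟦X⟧) :
    ∏' n : ℕ, (if l ∣ n + 1 then u n else 1) = ∏' n : ℕ, u (l * (n + 1) - 1) := by
  have hinj : Function.Injective fun n : ℕ => l * (n + 1) - 1 := by
    intro a b hab
    simp only at hab
    have h1 : 1 ≤ l * (a + 1) := Nat.mul_pos hl (Nat.succ_pos a)
    have h2 : 1 ≤ l * (b + 1) := Nat.mul_pos hl (Nat.succ_pos b)
    have h3 : l * (a + 1) = l * (b + 1) := by omega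
    have := Nat.eq_of_mul_eq_mul_left hl h3
    omega
  have hsupp : Function.mulSupport (fun n : ℕ => if l ∣ n + 1 then u n else 1)
      ⊆ Set.range fun n : ℕ => l * (n + 1) - 1 := by
    intro n hn
    rw [Function.mem_mulSupport] at hn
    by_cases hd : l ∣ n + 1
    · obtain ⟨m, hm⟩ := hd
      have hm0 : m ≠ 0 := by rintro rfl; simp at hm
      refine ⟨m - 1, ?_⟩
      simp only
      have : m - 1 + 1 = m := Nat.succ_pred_eq_of_ne_zero hm0
      rw [this, ← hm]
      simp
    · exfalso; apply hn; simp [hd]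
  have := hinj.tprod_eq hsupp
  rw [← this]
  congr 1
  funext n
  have h1 : 1 ≤ l * (n + 1) := Nat.mul_pos hl (Nat.succ_pos n)
  have h2 : l * (n + 1) - 1 + 1 = l * (n + 1) := Nat.sub_add_cancel h1
  simp [h2]

open Classical in
/-- the powers of a primitive root are exactly the roots of unity -/
theorem mze3_image_pow_eq {R : Type*} [CommRing R] [IsDomain R] {ω : R} {l : ℕ} (hl : 0 < l)
    (hω : IsPrimitiveRoot ω l) :
    (Finset.range l).image (fun b => ω ^ b) = Polynomial.nthRootsFinset l (1 : R) := by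
  classical
  apply Finset.eq_of_subset_of_card_le
  · intro x hx
    obtain ⟨b, -, rfl⟩ := Finset.mem_image.mp hx
    rw [Polynomial.mem_nthRootsFinset hl, ← pow_mul, mul_comm, pow_mul, hω.pow_eq_one, one_pow]
  · rw [hω.card_nthRootsFinset, Finset.card_image_of_injOn, Finset.card_range]
    intro a ha b hb hab
    exact hω.pow_inj (Finset.mem_range.mp ha) (Finset.mem_range.mp hb) hab

theorem mze3_prod_one_sub {R : Type*} [CommRing R] [IsDomain R] {ω : R} {l : ℕ} (hl : 0 < l)
    (hω : IsPrimitiveRoot ω l) (y : R) :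
    ∏ b ∈ Finset.range l, (1 - ω ^ b * y) = 1 - y ^ l := by
  classical
  have h := hω.pow_sub_pow_eq_prod_sub_mul 1 y hl
  rw [one_pow, ← mze3_image_pow_eq hl hω, Finset.prod_image] at h
  · exact h.symm
  · intro a ha b hb hab
    exact hω.pow_inj (Finset.mem_range.mp ha) (Finset.mem_range.mp hb) hab

theorem mze3_rescale_factor (c : K) (m : ℕ) :
    rescale c ((1 : K⟦X⟧) - X ^ m) = 1 - C (c ^ m) * X ^ m := by
  rw [map_sub, map_one, map_pow, rescale_X, mul_pow, ← map_pow]

/-- the local factor of the product formula -/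
theorem mze3_prod_rescale_factor {l : ℕ} (hl : l.Prime) {ζ : K} (hζ : IsPrimitiveRoot ζ l)
    (n : ℕ) :
    ∏ b ∈ Finset.range l, rescale (ζ ^ b) ((1 : K⟦X⟧) - X ^ (n + 1))
      = if l ∣ n + 1 then ((1 : K⟦X⟧) - X ^ (n + 1)) ^ l
        else expand l hl.ne_zero ((1 : K⟦X⟧) - X ^ (n + 1)) := by
  simp only [mze3_rescale_factor]
  split_ifs with hd
  · obtain ⟨k, hk⟩ := hd
    have h1 : ∀ b : ℕ, (ζ ^ b) ^ (n + 1) = 1 := by
      intro b
      rw [hk, ← pow_mul, mul_comm b, mul_assoc, pow_mul, hζ.pow_eq_one, one_pow]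
    simp only [h1, map_one, one_mul, Finset.prod_const, Finset.card_range]
  · have hcop : (n + 1).Coprime l := ((Nat.Prime.coprime_iff_not_dvd hl).mpr hd).symm
    have hω : IsPrimitiveRoot (ζ ^ (n + 1)) l := hζ.pow_of_coprime _ hcop
    have hω' : IsPrimitiveRoot (C (ζ ^ (n + 1)) : K⟦X⟧) l :=
      hω.map_of_injective (C_injective (R := K))
    have h2 := mze3_prod_one_sub hl.pos hω' ((X : K⟦X⟧) ^ (n + 1))
    rw [map_sub, map_one, map_pow, expand_X, ← pow_mul,
      show (X : K⟦X⟧) ^ (l * (n + 1)) = (X ^ (n + 1)) ^ l by rw [← pow_mul, mul_comm], ← h2]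
    refine Finset.prod_congr rfl fun b _ => ?_
    rw [← map_pow, ← pow_mul, ← pow_mul, mul_comm b (n + 1)]

/-- **the Hecke product formula for the Euler product** (topological version) -/
theorem mze3_eta_prod_top {l : ℕ} (hl : l.Prime) {ζ : K} (hζ : IsPrimitiveRoot ζ l) :
    (∏ b ∈ Finset.range l, rescale (ζ ^ b) (mze3Eta K)) *
        expand (l * l) (Nat.mul_ne_zero hl.ne_zero hl.ne_zero) (mze3Eta K)
      = expand l hl.ne_zero (mze3Eta K) ^ (l + 1) := by
  classical
  have hl0 := hl.ne_zero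
  have hll0 : l * l ≠ 0 := Nat.mul_ne_zero hl0 hl0
  set a : ℕ → K⟦X⟧ := fun n => 1 - X ^ (n + 1) with ha
  set e : ℕ → K⟦X⟧ := fun n => expand l hl0 (a n) with he
  have hga : Mze3Good a := mze3Good_base
  have hge : Mze3Good e := hga.expand l hl0
  have hEta : mze3Eta K = ∏' n, a n := mze3Eta_eq_tprod
  -- `P(X^l) = ∏ e n`
  have hE1 : expand l hl0 (mze3Eta K) = ∏' n, e n := by
    rw [hEta, hga.multipliable.map_tprod (expand l hl0) (mze3_continuous_expand l hl0)]
  -- the reindexed factors
  have hre : ∀ n, a (l * (n + 1) - 1) = e n := by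
    intro n
    have h1 : 1 ≤ l * (n + 1) := Nat.mul_pos hl.pos (Nat.succ_pos n)
    simp only [ha, he, Nat.sub_add_cancel h1, map_sub, map_one, map_pow, expand_X, ← pow_mul]
  have hre2 : ∀ n, e (l * (n + 1) - 1) = expand (l * l) hll0 (a n) := by
    intro n
    have h1 : 1 ≤ l * (n + 1) := Nat.mul_pos hl.pos (Nat.succ_pos n)
    simp only [ha, he, Nat.sub_add_cancel h1, map_sub, map_one, map_pow, expand_X, ← pow_mul]
    rw [mul_assoc]
  -- `P(X^{l²}) = C`
  have hC : expand (l * l) hll0 (mze3Eta K) = ∏' n, (if l ∣ n + 1 then e n else 1) := by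
    rw [mze3_tprod_dvd l hl.pos e, hEta,
      hga.multipliable.map_tprod (expand (l * l) hll0) (mze3_continuous_expand (l * l) hll0)]
    congr 1
    funext n
    exact (hre2 n).symm
  -- `P(X^l) = C * B`
  have hCB : expand l hl0 (mze3Eta K) = (∏' n, (if l ∣ n + 1 then e n else 1)) *
      ∏' n, (if l ∣ n + 1 then 1 else e n) := by
    rw [hE1, ← (hge.ite _).multipliable.tprod_mul (hge.ite' _).multipliable]
    congr 1
    funext n
    by_cases hd : l ∣ n + 1 <;> simp [hd]
  -- the left hand side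
  have hL1 : ∏ b ∈ Finset.range l, rescale (ζ ^ b) (mze3Eta K)
      = ∏' n, ∏ b ∈ Finset.range l, rescale (ζ ^ b) (a n) := by
    rw [Multipliable.tprod_finsetProd (fun b _ => (hga.rescale (ζ ^ b)).multipliable)]
    refine Finset.prod_congr rfl fun b _ => ?_
    rw [hEta, hga.multipliable.map_tprod (rescale (ζ ^ b)) (mze3_continuous_rescale (ζ ^ b))]
  have hL2 : ∏ b ∈ Finset.range l, rescale (ζ ^ b) (mze3Eta K)
      = (∏' n, (if l ∣ n + 1 then a n ^ l else 1)) * ∏' n, (if l ∣ n + 1 then 1 else e n) := by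
    rw [hL1, ← ((hga.pow l).ite _).multipliable.tprod_mul (hge.ite' _).multipliable]
    congr 1
    funext n
    rw [mze3_prod_rescale_factor hl hζ n]
    by_cases hd : l ∣ n + 1 <;> simp [hd, he, ha]
  have hL3 : ∏' n, (if l ∣ n + 1 then a n ^ l else 1) = expand l hl0 (mze3Eta K) ^ l := by
    rw [mze3_tprod_dvd l hl.pos (fun n => a n ^ l), hE1]
    have := hge.multipliable.map_tprod (powMonoidHom l : K⟦X⟧ →* K⟦X⟧) (continuous_pow l)
    simp only [powMonoidHom_apply] at this
    rw [this]
    congr 1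
    funext n
    rw [hre n]
  have key : ∀ E B C L : K⟦X⟧, E = C * B → L = E ^ l * B → L * C = E ^ (l + 1) := by
    intro E B C L h1 h2
    rw [h2, h1]
    ring
  rw [hC]
  exact key _ _ _ _ hCB (by rw [hL2, hL3])

end Top

/-- **the Hecke product formula for the Euler product** `P = ∏ (1 - X^n)`:
`∏_{b<l} P(ζ^b X) * P(X^{l²}) = P(X^l)^{l+1}` -/
theorem mze3_eta_prod {K : Type*} [Field K] {l : ℕ} (hl : l.Prime) {ζ : K}
    (hζ : IsPrimitiveRoot ζ l) :
    (∏ b ∈ Finset.range l, rescale (ζ ^ b) (mze3Eta K)) *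
        expand (l * l) (Nat.mul_ne_zero hl.ne_zero hl.ne_zero) (mze3Eta K)
      = expand l hl.ne_zero (mze3Eta K) ^ (l + 1) := by
  letI : TopologicalSpace K := ⊥
  haveI : DiscreteTopology K := ⟨rfl⟩
  exact mze3_eta_prod_top hl hζ

end Fermat.Agent.Mazur
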