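/-
MAZUR (Track M), package (E3) (lead), part 2: **the cuspidal class is nonzero**.

* `mze3_genus_eq_zero` : a function field (over an algebraically closed field of characteristic
  zero) containing a function with exactly one pole, which is simple, has genus `0`
  (Riemann–Roch: `ℓ(n Q) ≥ n + 1`);
* `mze3_genusFormula_pos` : `genusFormula p > 0` for a prime `p ∉ {2, 3, 5, 7, 13}`;
* `mze3_ne_zero` : the cuspidal class `c = [(0) - (∞)]` of `X₀(p)` is nonzero for such `p`.
-/
import Fermat.Agent.Lib.Mazur.E.Cusp3.DivU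
import Fermat.Agent.Lib.Curve.Riemann
import Fermat.Agent.Lib.S24.GenusRR
import Fermat.Agent.Lib.Eis.Geom.GenusNumerics

set_option autoImplicit false
set_option linter.style.haveILetI false
set_option linter.unusedSectionVars false
set_option linter.unusedVariables false
set_option synthInstance.maxHeartbeats 400000

open AlgebraicCurve Fermat.Agent.Curve Fermat.Agent.Curve.PlaceAux Fermat.Agent.Curve.RRAux
  ModularCurve

noncomputable section

namespace Fermat.Agent.Mazur

section Abstract

variable {K F : Type*} [Field K] [Field F] [Algebra K F] [IsAlgClosed K] [CharZero K]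

/-- a function field with a function having a single, simple pole has genus zero -/
theorem mze3_genus_eq_zero {x : F} (hx : IsFunctionFieldGen K F x) (f : F) (Q : Place K F)
    (hQ : Q.ord f = -1) (hf : ∀ v : Place K F, v ≠ Q → 0 ≤ v.ord f) : genusR K F = 0 := by
  classical
  have hnot : f ∉ Set.range (algebraMap K F) := by
    rintro ⟨a, rfl⟩
    rw [ord_algebraMap] at hQ
    omega
  have hg : IsFunctionFieldGen K F f := isFunctionFieldGen_of_notMem_range hx hnot
  have hpole : RRAux.poleDiv hg f = Finsupp.single Q 1 := by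
    ext v
    rw [RRAux.poleDiv_apply]
    by_cases hv : v = Q
    · subst hv
      rw [Finsupp.single_eq_same, hQ]
      norm_num
    · rw [Finsupp.single_eq_of_ne hv]
      have := hf v hv
      omega
  obtain ⟨c, hc⟩ := exists_forall_adeleH1_eq_zero hx
  set l : ℕ := c.toNat with hl
  set D : Divisor K F := (l : ℤ) • RRAux.poleDiv hg f with hD
  have hdegD : Divisor.degree D = l := by
    rw [hD, map_zsmul, hpole, Divisor.degree_single, deg_eq_one hx]
    simp
  have hH1 : Module.finrank K (AdeleH1 D) = 0 := by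
    apply hc
    rw [hdegD, hl]
    exact Int.self_le_toNat c
  have hRR := riemannRoch_H1 hx D
  rw [hH1, hdegD] at hRR
  -- lower bound `ℓ(D) ≥ l + 1`
  have hfd := finiteDimensional_riemannRochSpace hx D
  let Ψ : ↥(Polynomial.degreeLT K (l + 1)) →ₗ[K] ↥(riemannRochSpace D) :=
    LinearMap.codRestrict (riemannRochSpace D)
      ((Polynomial.aeval f : Polynomial K →ₐ[K] F).toLinearMap.comp
        (Polynomial.degreeLT K (l + 1)).subtype)
      (fun q => RRAux.aeval_mem_riemannRochSpace hg l (RRAux.natDegree_le_of_mem_degreeLT q.2))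
  have hΨ : Function.Injective Ψ := by
    intro q q' hqq'
    have h1 : Polynomial.aeval f (q.1 - q'.1) = 0 := by
      have := congrArg Subtype.val hqq'
      rw [map_sub, sub_eq_zero]
      exact this
    have h2 := (transcendental_iff.mp hg.transcendental) _ h1
    exact Subtype.ext (sub_eq_zero.mp h2)
  have h1 := LinearMap.finrank_le_finrank_of_injective hΨ
  rw [(Polynomial.degreeLTEquiv K (l + 1)).finrank_eq, Module.finrank_fintype_fun_eq_card,
    Fintype.card_fin] at h1
  have h2 : (l : ℤ) + 1 ≤ (ell D : ℤ) := by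
    have : l + 1 ≤ ell D := h1
    exact_mod_cast this
  have h3 : (genusR K F : ℤ) ≤ 0 := by
    push_cast at hRR
    omega
  have h4 : (0 : ℤ) ≤ (genusR K F : ℤ) := Nat.cast_nonneg _
  have : (genusR K F : ℤ) = 0 := le_antisymm h3 h4
  exact_mod_cast this

end Abstract

/-! ### numerics -/

theorem mze3_nuTwo_le (p : ℕ) [hp : Fact p.Prime] : nuTwo p ≤ 2 := by
  classical
  rw [nuTwo]
  set P : Polynomial (ZMod p) := Polynomial.X ^ 2 + 1 with hP
  have hP0 : P ≠ 0 := by
    intro h
    have := congrArg (fun q => Polynomial.coeff q 2) h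
    simp [hP, Polynomial.coeff_X_pow, Polynomial.coeff_one] at this
  have hdeg : P.natDegree ≤ 2 := by
    rw [hP]
    compute_degree
  have hinj : Function.Injective
      (fun x : {x : ZMod p // x ^ 2 + 1 = 0} => (⟨x.1, by
        rw [Multiset.mem_toFinset, Polynomial.mem_roots hP0, Polynomial.IsRoot.def, hP]
        simp [x.2]⟩ : {y // y ∈ P.roots.toFinset})) := by
    intro x y hxy
    simp only [Subtype.mk.injEq] at hxy
    exact Subtype.ext hxy
  have h1 := Nat.card_le_card_of_injective _ hinj
  have h2 : Nat.card {y // y ∈ P.roots.toFinset} = P.roots.toFinset.card := by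
    rw [Nat.card_eq_fintype_card, Fintype.card_coe]
  rw [h2] at h1
  exact h1.trans ((Multiset.toFinset_card_le _).trans ((Polynomial.card_roots' P).trans hdeg))

theorem mze3_nuThree_le (p : ℕ) [hp : Fact p.Prime] : nuThree p ≤ 2 := by
  classical
  rw [nuThree]
  set P : Polynomial (ZMod p) := Polynomial.X ^ 2 + Polynomial.X + 1 with hP
  have hP0 : P ≠ 0 := by
    intro h
    have := congrArg (fun q => Polynomial.coeff q 2) h
    simp [hP, Polynomial.coeff_X_pow, Polynomial.coeff_one, Polynomial.coeff_X] at this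
  have hdeg : P.natDegree ≤ 2 := by
    rw [hP]
    compute_degree
  have hinj : Function.Injective
      (fun x : {x : ZMod p // x ^ 2 + x + 1 = 0} => (⟨x.1, by
        rw [Multiset.mem_toFinset, Polynomial.mem_roots hP0, Polynomial.IsRoot.def, hP]
        simp [x.2]⟩ : {y // y ∈ P.roots.toFinset})) := by
    intro x y hxy
    simp only [Subtype.mk.injEq] at hxy
    exact Subtype.ext hxy
  have h1 := Nat.card_le_card_of_injective _ hinj
  have h2 : Nat.card {y // y ∈ P.roots.toFinset} = P.roots.toFinset.card := by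
    rw [Nat.card_eq_fintype_card, Fintype.card_coe]
  rw [h2] at h1
  exact h1.trans ((Multiset.toFinset_card_le _).trans ((Polynomial.card_roots' P).trans hdeg))

/-- `g(X₀(p)) > 0` for a prime `p ∉ {2, 3, 5, 7, 13}` -/
theorem mze3_genusFormula_pos (p : ℕ) [hp : Fact p.Prime]
    (h : p ∉ ({2, 3, 5, 7, 13} : Finset ℕ)) : 0 < genusFormula p := by
  have hpp := hp.out
  simp only [Finset.mem_insert, Finset.mem_singleton, not_or] at h
  obtain ⟨h2, h3, h5, h7, h13⟩ := h
  rw [genusFormula, Fermat.Agent.Eis.eo_dedekindPsi_prime hpp, Fermat.Agent.Eis.eo_cuspCount_prime hpp]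
  by_cases h11 : p = 11
  · subst h11
    rw [Fermat.Agent.Eis.eo_nuTwo_eq_zero (by norm_num), Fermat.Agent.Eis.eo_nuThree_eq_zero (by norm_num)]
    norm_num
  · have h17 : 17 ≤ p := by
      by_contra hlt
      push Not at hlt
      have h2le := hpp.two_le
      interval_cases p <;> first | omega | (exfalso; revert hpp; decide)
    have hn2 : (nuTwo p : ℚ) ≤ 2 := by exact_mod_cast mze3_nuTwo_le p
    have hn3 : (nuThree p : ℚ) ≤ 2 := by exact_mod_cast mze3_nuThree_le p
    have hp17 : (17 : ℚ) ≤ p := by exact_mod_cast h17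
    push_cast
    linarith

/-! ### the cuspidal class is nonzero -/

local notation "Qb" => AlgebraicClosure ℚ

/-- **`c ≠ 0`** -/
theorem mze3_ne_zero (p : ℕ) [hp : Fact p.Prime] (h : p ∉ ({2, 3, 5, 7, 13} : Finset ℕ)) :
    mzcCusp p ≠ 0 := by
  intro hc
  have hgen := mzc_isFunctionFieldGen p
  rw [mzcCusp, mzcCls] at hc
  have hprin := (QuotientAddGroup.eq_zero_iff _).mp hc
  rw [AddSubgroup.mem_addSubgroupOf, Divisor.mem_principal] at hprin
  obtain ⟨f, hf0, hf⟩ := hprin
  have hne := mze3_inf_ne_zero p
  have hfinf : (mzcInf p).ord f = -1 := by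
    rw [← hf]
    simp only [Finsupp.sub_apply]
    rw [Finsupp.single_eq_same, Finsupp.single_eq_of_ne hne]
    norm_num
  have hfv : ∀ v : Place Qb ↥(modularFunctionFieldBar p), v ≠ mzcInf p → 0 ≤ v.ord f := by
    intro v hv
    rw [← hf]
    simp only [Finsupp.sub_apply]
    rw [Finsupp.single_eq_of_ne hv, sub_zero]
    by_cases hv0 : v = mzcZero p
    · subst hv0
      rw [Finsupp.single_eq_same]
      norm_num
    · rw [Finsupp.single_eq_of_ne hv0]
  have hg0 := mze3_genus_eq_zero hgen f (mzcInf p) hfinf hfv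
  have hpos := mze3_genusFormula_pos p h
  rw [← Fermat.Agent.S24Lib.genusR_eq_genusFormula p, hg0] at hpos
  simp at hpos

end Fermat.Agent.Mazur
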